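import Fermat.Agent.LT.T6.Spec

/-!
# Row LT, tower T6, leaf T6.04 `NormClassC` (helper981), OFF-MAIN

Langlands, *Base change for GL(2)*, Lemma 4.1: the norm `N δ = δ · σ δ ⋯ σ^{l-1} δ` of every
`δ ∈ GL₂(K')` is conjugate in `GL₂(K')` to an element of `GL₂(K)`.

Proof.  `σ (N δ) = δ⁻¹ (N δ) δ` because `σ ^ l = 1`; hence the trace and the determinant of `N δ`
are fixed by `σ`, i.e. lie in `K`.  If `N δ` is not a scalar matrix it is conjugate to the companion
matrix of its characteristic polynomial (basis `v, N v` for a cyclic vector `v`), which has entries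
in `K`.  If `N δ = a · 1` is scalar then `σ a = a`, so `a ∈ K`.

Target: `Fermat.Agent.LT.T6.NormClassC` VERBATIM (Spec of helper22, sha256 89f8f8b81940fd80…).
-/

set_option autoImplicit false

open scoped Matrix

noncomputable section

namespace Fermat.Agent.LT.T6.H981

open Fermat.Agent.LT.T6

/-- `N_{n+1} δ = N_n δ · s^n δ`. -/
theorem twN_succ_right981 {Γ : Type} [Group Γ] (s : Γ →* Γ) (n : ℕ) (δ : Γ) :
    twN s (n + 1) δ = twN s n δ * (s^[n]) δ := by
  induction n with
  | zero => simp [twN]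
  | succ n ih =>
    have h2 : twN s (n + 1) δ = δ * s (twN s n δ) := rfl
    calc twN s (n + 1 + 1) δ = δ * s (twN s (n + 1) δ) := rfl
      _ = δ * s (twN s n δ * (s^[n]) δ) := by rw [ih]
      _ = δ * s (twN s n δ) * s ((s^[n]) δ) := by rw [map_mul, mul_assoc]
      _ = twN s (n + 1) δ * (s^[n + 1]) δ := by
          rw [Function.iterate_succ_apply', ← h2]

/-- If `s^n δ = δ` then `s (N_n δ) = δ⁻¹ · N_n δ · δ`. -/
theorem map_twN_eq_conj981 {Γ : Type} [Group Γ] (s : Γ →* Γ) (n : ℕ) (δ : Γ)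
    (h : (s^[n]) δ = δ) : s (twN s n δ) = δ⁻¹ * twN s n δ * δ := by
  have h1 : twN s (n + 1) δ = δ * s (twN s n δ) := rfl
  have h2 := twN_succ_right981 s n δ
  rw [h, h1] at h2
  rw [mul_assoc, ← h2, inv_mul_cancel_left]

/-- Entries of the iterates of `glAut s`. -/
theorem glAut_iterate_apply981 {R : Type} [CommRing R] (s : R ≃+* R) (n : ℕ)
    (δ : GL (Fin 2) R) (i j : Fin 2) :
    ((((glAut s)^[n]) δ : GL (Fin 2) R) : Matrix (Fin 2) (Fin 2) R) i j
      = (s ^ n) ((δ : Matrix (Fin 2) (Fin 2) R) i j) := by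
  induction n with
  | zero => simp
  | succ n ih =>
    rw [Function.iterate_succ_apply', pow_succ', RingAut.mul_apply, ← ih]
    simp [glAut, Matrix.GeneralLinearGroup.map_apply]

theorem glAut_apply981 {R : Type} [CommRing R] (s : R ≃+* R)
    (δ : GL (Fin 2) R) (i j : Fin 2) :
    ((glAut s δ : GL (Fin 2) R) : Matrix (Fin 2) (Fin 2) R) i j
      = s ((δ : Matrix (Fin 2) (Fin 2) R) i j) := by
  simp [glAut, Matrix.GeneralLinearGroup.map_apply]

/-- The companion-type matrix `!![0, -D; 1, T]` over `K`. -/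
def compan981 {K : Type} [Field K] (T D : K) (hD : D ≠ 0) : GL (Fin 2) K :=
  Matrix.GeneralLinearGroup.mkOfDetNeZero !![0, -D; 1, T] (by
    rw [Matrix.det_fin_two]; simpa using hD)

theorem compan_apply981 {K : Type} [Field K] (T D : K) (hD : D ≠ 0) :
    ((compan981 T D hD : GL (Fin 2) K) : Matrix (Fin 2) (Fin 2) K) = !![0, -D; 1, T] := rfl

/-- Conjugacy from an intertwining relation `N * P = P * C` in a group. -/
theorem isConj_of_mul_eq981 {G : Type} [Group G] {N P C : G} (h : N * P = P * C) :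
    IsConj N C := by
  rw [isConj_iff]
  refine ⟨P⁻¹, ?_⟩
  rw [inv_inv, mul_assoc, h, inv_mul_cancel_left]

/-- Key linear algebra: a `2 × 2` matrix `N` over a field `K'` whose trace and determinant are
the images of `T`, `D ∈ K` (`D ≠ 0`) and which is NOT of the form `b = c = 0`, `a = d`, is
conjugate to the image of the companion matrix. -/
theorem isConj_compan981 {K K' : Type} [Field K] [Field K'] (i : K →+* K')
    (N : GL (Fin 2) K') (T D : K) (hD : D ≠ 0)
    (hT : i T = (N : Matrix (Fin 2) (Fin 2) K') 0 0 + (N : Matrix (Fin 2) (Fin 2) K') 1 1)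
    (hDet : i D = (N : Matrix (Fin 2) (Fin 2) K') 0 0 * (N : Matrix (Fin 2) (Fin 2) K') 1 1
      - (N : Matrix (Fin 2) (Fin 2) K') 0 1 * (N : Matrix (Fin 2) (Fin 2) K') 1 0)
    (hns : ¬ ((N : Matrix (Fin 2) (Fin 2) K') 0 1 = 0 ∧ (N : Matrix (Fin 2) (Fin 2) K') 1 0 = 0 ∧
      (N : Matrix (Fin 2) (Fin 2) K') 0 0 = (N : Matrix (Fin 2) (Fin 2) K') 1 1)) :
    IsConj N (Matrix.GeneralLinearGroup.map i (compan981 T D hD)) := by
  set a := (N : Matrix (Fin 2) (Fin 2) K') 0 0 with ha
  set b := (N : Matrix (Fin 2) (Fin 2) K') 0 1 with hb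
  set c := (N : Matrix (Fin 2) (Fin 2) K') 1 0 with hc
  set d := (N : Matrix (Fin 2) (Fin 2) K') 1 1 with hd
  have hNeta : (N : Matrix (Fin 2) (Fin 2) K') = !![a, b; c, d] := Matrix.eta_fin_two _
  have hC : ((Matrix.GeneralLinearGroup.map i (compan981 T D hD) : GL (Fin 2) K') :
      Matrix (Fin 2) (Fin 2) K') = !![0, -(a * d - b * c); 1, a + d] := by
    ext r k
    rw [Matrix.GeneralLinearGroup.map_apply, compan_apply981]
    fin_cases r <;> fin_cases k <;> simp [hT, hDet]
  -- a general intertwiner `P = [v | N v]`, `v = (x, y)`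
  have key : ∀ (x y : K'), c * x ^ 2 + (d - a) * x * y - b * y ^ 2 ≠ 0 →
      IsConj N (Matrix.GeneralLinearGroup.map i (compan981 T D hD)) := by
    intro x y hxy
    have hdet : (!![x, a * x + b * y; y, c * x + d * y] : Matrix (Fin 2) (Fin 2) K').det ≠ 0 := by
      rw [Matrix.det_fin_two]
      simp only [Matrix.of_apply, Matrix.cons_val', Matrix.cons_val_zero, Matrix.cons_val_one,
        Matrix.cons_val_fin_one]
      intro h0
      apply hxy
      linear_combination h0
    let P : GL (Fin 2) K' := Matrix.GeneralLinearGroup.mkOfDetNeZero _ hdet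
    have hP : (P : Matrix (Fin 2) (Fin 2) K') = !![x, a * x + b * y; y, c * x + d * y] := rfl
    apply isConj_of_mul_eq981 (P := P)
    apply Matrix.GeneralLinearGroup.ext
    intro r k
    rw [Matrix.GeneralLinearGroup.coe_mul, Matrix.GeneralLinearGroup.coe_mul, hC, hP, hNeta]
    fin_cases r <;> fin_cases k <;>
      simp [Matrix.mul_apply, Fin.sum_univ_two] <;> ring
  by_cases hc0 : c = 0
  · by_cases hb0 : b = 0
    · have had : a ≠ d := fun h => hns ⟨hb0, hc0, h⟩
      apply key 1 1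
      rw [hc0, hb0]
      simpa [sub_eq_zero] using fun h : d = a => had h.symm
    · apply key 0 1
      simpa using hb0
  · apply key 1 0
    simpa using hc0

/-- **T6.04 `NormClassC`** (Langlands, Lemma 4.1), VERBATIM. -/
theorem normClassC_h981 : NormClassC := by
  intro K K' _ _ l i s hcyc δ
  -- `σ (N δ) = δ⁻¹ (N δ) δ`
  have hiter : ((glAut s)^[l]) δ = δ := by
    apply Matrix.GeneralLinearGroup.ext
    intro r k
    rw [glAut_iterate_apply981]
    exact hcyc.order _
  have hσ : glAut s (twNorm s l δ) = δ⁻¹ * twNorm s l δ * δ :=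
    map_twN_eq_conj981 (glAut s) l δ hiter
  set N : GL (Fin 2) K' := twNorm s l δ with hN
  set a := (N : Matrix (Fin 2) (Fin 2) K') 0 0 with ha
  set b := (N : Matrix (Fin 2) (Fin 2) K') 0 1 with hb
  set c := (N : Matrix (Fin 2) (Fin 2) K') 1 0 with hc
  set d := (N : Matrix (Fin 2) (Fin 2) K') 1 1 with hd
  have hσM : ((glAut s N : GL (Fin 2) K') : Matrix (Fin 2) (Fin 2) K')
      = ((δ⁻¹ : GL (Fin 2) K') : Matrix (Fin 2) (Fin 2) K') * (N : Matrix (Fin 2) (Fin 2) K')
        * (δ : Matrix (Fin 2) (Fin 2) K') := by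
    rw [hσ, Matrix.GeneralLinearGroup.coe_mul, Matrix.GeneralLinearGroup.coe_mul]
  have hδ : (δ : Matrix (Fin 2) (Fin 2) K') * ((δ⁻¹ : GL (Fin 2) K') : Matrix (Fin 2) (Fin 2) K')
      = 1 := by
    rw [← Matrix.GeneralLinearGroup.coe_mul, mul_inv_cancel]; rfl
  -- the trace is fixed
  have htr : s (a + d) = a + d := by
    have h1 : ((glAut s N : GL (Fin 2) K') : Matrix (Fin 2) (Fin 2) K').trace = s (a + d) := by
      rw [Matrix.trace_fin_two, glAut_apply981, glAut_apply981, map_add]
    have h2 : ((glAut s N : GL (Fin 2) K') : Matrix (Fin 2) (Fin 2) K').trace = a + d := by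
      rw [hσM, Matrix.trace_mul_comm, ← Matrix.mul_assoc, hδ, Matrix.one_mul,
        Matrix.trace_fin_two]
    rw [← h1, h2]
  -- the determinant is fixed
  have hdt : s (a * d - b * c) = a * d - b * c := by
    have h1 : ((glAut s N : GL (Fin 2) K') : Matrix (Fin 2) (Fin 2) K').det
        = s (a * d - b * c) := by
      rw [Matrix.det_fin_two, glAut_apply981, glAut_apply981, glAut_apply981, glAut_apply981,
        map_sub, map_mul, map_mul]
    have h2 : ((glAut s N : GL (Fin 2) K') : Matrix (Fin 2) (Fin 2) K').det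
        = a * d - b * c := by
      rw [hσM, Matrix.det_mul, Matrix.det_mul, mul_comm, ← mul_assoc, ← Matrix.det_mul, hδ,
        Matrix.det_one, one_mul, Matrix.det_fin_two]
    rw [← h1, h2]
  obtain ⟨T, hT⟩ := hcyc.fixed _ htr
  obtain ⟨D, hD⟩ := hcyc.fixed _ hdt
  have hdetne : a * d - b * c ≠ 0 := by
    have h := Matrix.GeneralLinearGroup.det_ne_zero N
    rwa [Matrix.det_fin_two] at h
  have hD0 : D ≠ 0 := by
    rintro rfl
    rw [map_zero] at hD
    exact hdetne hD.symm
  by_cases hsc : b = 0 ∧ c = 0 ∧ a = d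
  · -- the scalar case: `σ a = a`
    obtain ⟨hb0, hc0, had⟩ := hsc
    have hNeta : (N : Matrix (Fin 2) (Fin 2) K') = !![a, 0; 0, a] := by
      have h := Matrix.eta_fin_two (N : Matrix (Fin 2) (Fin 2) K')
      rw [← ha, ← hb, ← hc, ← hd, hb0, hc0, ← had] at h
      exact h
    have hcomm : (N : Matrix (Fin 2) (Fin 2) K') * (δ : Matrix (Fin 2) (Fin 2) K')
        = (δ : Matrix (Fin 2) (Fin 2) K') * (N : Matrix (Fin 2) (Fin 2) K') := by
      rw [hNeta]
      ext r k
      fin_cases r <;> fin_cases k <;> simp [Matrix.mul_apply, Fin.sum_univ_two, mul_comm]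
    have hsa : s a = a := by
      have h1 : ((glAut s N : GL (Fin 2) K') : Matrix (Fin 2) (Fin 2) K') 0 0 = s a :=
        glAut_apply981 s N 0 0
      have h2 : ((glAut s N : GL (Fin 2) K') : Matrix (Fin 2) (Fin 2) K')
          = (N : Matrix (Fin 2) (Fin 2) K') := by
        have hδ' : ((δ⁻¹ : GL (Fin 2) K') : Matrix (Fin 2) (Fin 2) K')
            * (δ : Matrix (Fin 2) (Fin 2) K') = 1 := by
          rw [← Matrix.GeneralLinearGroup.coe_mul, inv_mul_cancel]; rfl
        rw [hσM, Matrix.mul_assoc, hcomm, ← Matrix.mul_assoc, hδ', Matrix.one_mul]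
      rw [← h1, h2]
    obtain ⟨A, hA⟩ := hcyc.fixed _ hsa
    have ha0 : a ≠ 0 := by
      intro h0
      apply hdetne
      rw [hb0, ← had, h0]; ring
    have hA0 : A ≠ 0 := by
      rintro rfl
      rw [map_zero] at hA
      exact ha0 hA.symm
    have hdet : (!![A, 0; 0, A] : Matrix (Fin 2) (Fin 2) K).det ≠ 0 := by
      rw [Matrix.det_fin_two]
      simpa using hA0
    refine ⟨Matrix.GeneralLinearGroup.mkOfDetNeZero _ hdet, ?_⟩
    have heq : N = Matrix.GeneralLinearGroup.map i
        (Matrix.GeneralLinearGroup.mkOfDetNeZero _ hdet) := by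
      apply Matrix.GeneralLinearGroup.ext
      intro r k
      rw [Matrix.GeneralLinearGroup.map_apply, hNeta]
      have hM : ((Matrix.GeneralLinearGroup.mkOfDetNeZero _ hdet : GL (Fin 2) K) :
          Matrix (Fin 2) (Fin 2) K) = !![A, 0; 0, A] := rfl
      rw [hM]
      fin_cases r <;> fin_cases k <;> simp [hA]
    rw [← heq]
  · -- the non-scalar case: companion matrix
    refine ⟨compan981 T D hD0, ?_⟩
    exact isConj_compan981 i N T D hD0 hT hD hsc

end Fermat.Agent.LT.T6.H981

end
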